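/-
G1-K18 (helper95), part 2: descent of `KummerRootF` along an inclusion `F₀ ≤ F₀'` of fields of
rational Laurent series, when the degree `[ℚ̄·F₀' : ℚ̄·F₀]` is prime to the exponent.

* `baseChange_mono`, `baseChangeIncl hle : ℚ̄·F₀ →ₐ[ℚ̄] ℚ̄·F₀'`;
* `kummerRootF_of_le` : `KummerRootF F₀' A m → KummerRootF F₀ A m` if the degree is prime to `m`
  (norm + Bézout; the orders of a function of `ℚ̄·F₀` at the places of `ℚ̄·F₀'` are multiples of
  its orders at the places of `ℚ̄·F₀`);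
* `finite_and_finrank_le_of_eq_sup` (field theory): `[K₁·K₀' : K₁] ≤ [K₀' : K₀]`;
* `baseChange_sup` : `L·(F ⊔ G) = L·F ⊔ L·G`;
* `kummerRootF_of_sup` : the descent from `F₀ ⊔ G₀'` to `F₀` when `G₀ ≤ F₀`, `G₀ ≤ G₀'`,
  `[ℚ̄·G₀' : ℚ̄·G₀] = e` and the prime `m` is larger than `e`.
-/
import Mathlib
import Fermat.Agent.G1.Cong.TorsionESAbs
import Fermat.Agent.ESJ.Cong.KummerRootLevel
import Fermat.Agent.ESJ.Cong.LevelGen

set_option autoImplicit false
set_option linter.style.haveILetI false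

namespace Fermat.Agent.G1.K18

open ModularCurve AlgebraicCurve HahnSeries Fermat.Agent.G1.Cong IntermediateField

noncomputable section

/-! ### Field theory: the degree of a compositum -/

section FieldTheory

variable {K Ω : Type*} [Field K] [Field Ω] [Algebra K Ω]

/-- `[K₁·K₀' : K₁] ≤ [K₀' : K₀]` for intermediate fields `K₀ ≤ K₀'`, `K₀ ≤ K₁` of `Ω / K`, with
the module structures along the inclusions. -/
theorem finite_and_finrank_le_of_eq_sup (K0 K0' K1 K1a : IntermediateField K Ω) (h0 : K0 ≤ K0')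
    (h1 : K0 ≤ K1) (h1a : K1 ≤ K1a) (hsup : K1a = K1 ⊔ K0')
    (hfin : letI := algebraAlong (inclusion h0); Module.Finite ↥K0 ↥K0') :
    letI := algebraAlong (inclusion h1a)
    Module.Finite ↥K1 ↥K1a ∧
      Module.finrank ↥K1 ↥K1a ≤
        (letI := algebraAlong (inclusion h0); Module.finrank ↥K0 ↥K0') := by
  subst hsup
  letI a0 : Algebra ↥K0 ↥K0' := algebraAlong (inclusion h0)
  letI a1 : Algebra ↥K1 ↥(K1 ⊔ K0') := algebraAlong (inclusion h1a)
  letI a01 : Algebra ↥K0 ↥K1 := (inclusion h1).toRingHom.toAlgebra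
  haveI : IsScalarTower ↥K0 ↥K1 Ω := IsScalarTower.of_algebraMap_eq (fun x => rfl)
  haveI : Module.Finite ↥K0 ↥K0' := hfin
  let L : IntermediateField ↥K0 Ω := extendScalars h0
  -- the identity `K0' ≃ L`
  let e0 : ↥K0' ≃ₗ[↥K0] ↥L :=
    { toFun := fun x => ⟨x.1, x.2⟩
      invFun := fun x => ⟨x.1, x.2⟩
      map_add' := fun x y => rfl
      map_smul' := fun c x => rfl
      left_inv := fun x => rfl
      right_inv := fun x => rfl }
  haveI : Module.Finite ↥K0 ↥L := Module.Finite.equiv e0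
  haveI : Algebra.IsAlgebraic ↥K0 ↥L := Algebra.IsAlgebraic.of_finite _ _
  have hrank := adjoin_rank_le_of_isAlgebraic_right (E := ↥K1) L
  have hT : ∀ x : Ω, x ∈ adjoin ↥K1 (L : Set Ω) ↔ x ∈ K1 ⊔ K0' := by
    intro x
    constructor
    · intro hx
      have hle : adjoin ↥K1 (L : Set Ω) ≤ extendScalars h1a := by
        rw [adjoin_le_iff]
        intro y hy
        exact (le_sup_right : K0' ≤ K1 ⊔ K0') hy
      exact hle hx
    · intro hx
      have hle : K1 ⊔ K0' ≤ (adjoin ↥K1 (L : Set Ω)).restrictScalars K := by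
        refine sup_le ?_ ?_
        · intro y hy
          exact (adjoin ↥K1 (L : Set Ω)).algebraMap_mem ⟨y, hy⟩
        · intro y hy
          exact subset_adjoin ↥K1 (L : Set Ω) hy
      exact hle hx
  let e1 : ↥(K1 ⊔ K0') ≃ₗ[↥K1] ↥(adjoin ↥K1 (L : Set Ω)) :=
    { toFun := fun x => ⟨x.1, (hT x.1).2 x.2⟩
      invFun := fun x => ⟨x.1, (hT x.1).1 x.2⟩
      map_add' := fun x y => rfl
      map_smul' := fun c x => rfl
      left_inv := fun x => rfl
      right_inv := fun x => rfl }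
  have h2 : Module.rank ↥K1 ↥(K1 ⊔ K0') ≤ Module.rank ↥K0 ↥K0' := by
    rw [e1.rank_eq, e0.rank_eq]
    exact hrank
  have h3 : Module.rank ↥K0 ↥K0' < Cardinal.aleph0 := Module.rank_lt_aleph0 _ _
  refine ⟨Module.rank_lt_aleph0_iff.mp (lt_of_le_of_lt h2 h3), ?_⟩
  exact Cardinal.toNat_le_toNat h2 h3

end FieldTheory

/-! ### Base change -/

section BaseChange

variable (L : Type*) [Field L] [Algebra ℚ L]

theorem baseChange_mono {F₀ F₀' : IntermediateField ℚ (LaurentSeries ℚ)} (h : F₀ ≤ F₀') :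
    laurentBaseChange L F₀ ≤ laurentBaseChange L F₀' := by
  rw [laurentBaseChange, adjoin_le_iff]
  rintro _ ⟨y, hy, rfl⟩
  exact coeffEmb_mem_laurentBaseChange L (h hy)

/-- The base change of a compositum is the compositum of the base changes. -/
theorem baseChange_sup (F₀ G₀ : IntermediateField ℚ (LaurentSeries ℚ)) :
    laurentBaseChange L (F₀ ⊔ G₀) = laurentBaseChange L F₀ ⊔ laurentBaseChange L G₀ := by
  apply le_antisymm
  · rw [laurentBaseChange, adjoin_le_iff]
    rintro _ ⟨y, hy, rfl⟩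
    have hy' : y ∈ adjoin ℚ ((F₀ : Set (LaurentSeries ℚ)) ∪ (G₀ : Set (LaurentSeries ℚ))) := by
      rw [adjoin_union, adjoin_self, adjoin_self]
      exact hy
    refine Fermat.Agent.ESJ.Cong.LevelGen.coeffEmb_mem_of_mem_adjoin
      (laurentBaseChange L F₀ ⊔ laurentBaseChange L G₀) ?_ hy'
    rintro s (hs | hs)
    · exact (le_sup_left : laurentBaseChange L F₀ ≤ _) (coeffEmb_mem_laurentBaseChange L hs)
    · exact (le_sup_right : laurentBaseChange L G₀ ≤ _) (coeffEmb_mem_laurentBaseChange L hs)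
  · exact sup_le (baseChange_mono L le_sup_left) (baseChange_mono L le_sup_right)

/-- The inclusion of the base changes. -/
def baseChangeIncl {F₀ F₀' : IntermediateField ℚ (LaurentSeries ℚ)} (h : F₀ ≤ F₀') :
    ↥(laurentBaseChange L F₀) →ₐ[L] ↥(laurentBaseChange L F₀') :=
  inclusion (baseChange_mono L h)

@[simp] theorem coe_baseChangeIncl {F₀ F₀' : IntermediateField ℚ (LaurentSeries ℚ)}
    (h : F₀ ≤ F₀') (x : ↥(laurentBaseChange L F₀)) :
    ((baseChangeIncl L h x : ↥(laurentBaseChange L F₀')) : LaurentSeries L) =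
      (x : LaurentSeries L) :=
  IntermediateField.coe_inclusion _ x

end BaseChange

/-! ### The descent -/

local notation "Qbar" => AlgebraicClosure ℚ

set_option synthInstance.maxHeartbeats 400000 in
set_option maxHeartbeats 1000000 in
/-- **Descent of `KummerRootF`** along `F₀ ≤ F₀'`, for `m` prime to the degree
`[ℚ̄·F₀' : ℚ̄·F₀]`. -/
theorem kummerRootF_of_le {F₀ F₀' : IntermediateField ℚ (LaurentSeries ℚ)} (hle : F₀ ≤ F₀')
    (A : ValuationSubring Qbar) (m : ℕ)
    (hfin : letI := algebraAlong (baseChangeIncl Qbar hle)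
      Module.Finite ↥(laurentBaseChange Qbar F₀) ↥(laurentBaseChange Qbar F₀'))
    (hcop : letI := algebraAlong (baseChangeIncl Qbar hle)
      Nat.Coprime (Module.finrank ↥(laurentBaseChange Qbar F₀) ↥(laurentBaseChange Qbar F₀')) m)
    (hK : KummerRootF F₀' A m) : KummerRootF F₀ A m := by
  intro y z hy hz hzbar hyz hdvd
  letI := algebraAlong (baseChangeIncl Qbar hle)
  haveI : Module.Finite ↥(laurentBaseChange Qbar F₀) ↥(laurentBaseChange Qbar F₀') := hfin
  have hα : (baseChangeIncl Qbar hle).toRingHom.IsIntegral := by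
    intro x
    exact (Algebra.IsIntegral.of_finite ↥(laurentBaseChange Qbar F₀)
      ↥(laurentBaseChange Qbar F₀')).isIntegral x
  -- the two series in the larger field
  have hy' : coeffMap A.subtype y ∈ laurentBaseChange Qbar F₀' := baseChange_mono Qbar hle hy
  have hz' : coeffMap A.subtype z ∈ laurentBaseChange Qbar F₀' := baseChange_mono Qbar hle hz
  have hαy : baseChangeIncl Qbar hle ⟨_, hy⟩ = ⟨_, hy'⟩ :=
    Subtype.ext (coe_baseChangeIncl Qbar hle _)
  have hαz : baseChangeIncl Qbar hle ⟨_, hz⟩ = ⟨_, hz'⟩ :=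
    Subtype.ext (coe_baseChangeIncl Qbar hle _)
  obtain ⟨g, hg⟩ := hK y z hy' hz' hzbar hyz (fun w => by
    rw [← hαy, ← hαz, Place.ord_restrictAlong _ hα, Place.ord_restrictAlong _ hα, ← mul_sub]
    exact Dvd.dvd.mul_left (hdvd _) _)
  have hz0 : (⟨_, hz⟩ : ↥(laurentBaseChange Qbar F₀)) ≠ 0 := incl_ne_zero hz hzbar
  have hy0 : (⟨_, hy⟩ : ↥(laurentBaseChange Qbar F₀)) ≠ 0 :=
    incl_ne_zero hy (by rw [hyz]; exact hzbar)
  -- norms
  have hnorm : ∀ x : ↥(laurentBaseChange Qbar F₀),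
      Algebra.norm ↥(laurentBaseChange Qbar F₀) (baseChangeIncl Qbar hle x) =
        x ^ Module.finrank ↥(laurentBaseChange Qbar F₀) ↥(laurentBaseChange Qbar F₀') := by
    intro x
    exact Algebra.norm_algebraMap (S := ↥(laurentBaseChange Qbar F₀')) x
  have h2 : (⟨_, hy⟩ : ↥(laurentBaseChange Qbar F₀)) ^
        Module.finrank ↥(laurentBaseChange Qbar F₀) ↥(laurentBaseChange Qbar F₀') =
      (⟨_, hz⟩ : ↥(laurentBaseChange Qbar F₀)) ^
        Module.finrank ↥(laurentBaseChange Qbar F₀) ↥(laurentBaseChange Qbar F₀') *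
        (Algebra.norm ↥(laurentBaseChange Qbar F₀) g) ^ m := by
    rw [← hnorm, ← hnorm, hαy, hαz, hg, map_mul, map_pow]
  obtain ⟨g', hg'⟩ := Fermat.Agent.ESJ.Cong.TorsionESK.exists_pow_eq_of_coprime hcop
    (h := (⟨_, hy⟩ : ↥(laurentBaseChange Qbar F₀)) *
      (⟨_, hz⟩ : ↥(laurentBaseChange Qbar F₀))⁻¹)
    (n := Algebra.norm ↥(laurentBaseChange Qbar F₀) g)
    (mul_ne_zero hy0 (inv_ne_zero hz0)) (by
      rw [mul_pow, h2, inv_pow]
      field_simp)
  refine ⟨g', ?_⟩
  rw [← hg', mul_comm, mul_assoc, inv_mul_cancel₀ hz0, mul_one]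

set_option synthInstance.maxHeartbeats 400000 in
set_option maxHeartbeats 1000000 in
/-- **Descent from a compositum.**  If `G₀ ≤ F₀`, `G₀ ≤ G₀'`, `ℚ̄·G₀'` is finite over `ℚ̄·G₀` of
degree `≤ e`, and `m` is a prime larger than `e`, then `KummerRootF` descends from `F₀ ⊔ G₀'` to
`F₀`. -/
theorem kummerRootF_of_sup {F₀ G₀ G₀' : IntermediateField ℚ (LaurentSeries ℚ)} (hG : G₀ ≤ G₀')
    (hGF : G₀ ≤ F₀) (A : ValuationSubring Qbar) (m e : ℕ) (hm : m.Prime) (hem : e < m)
    (hfin : letI := algebraAlong (baseChangeIncl Qbar hG)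
      Module.Finite ↥(laurentBaseChange Qbar G₀) ↥(laurentBaseChange Qbar G₀'))
    (hfr : letI := algebraAlong (baseChangeIncl Qbar hG)
      Module.finrank ↥(laurentBaseChange Qbar G₀) ↥(laurentBaseChange Qbar G₀') ≤ e)
    (hK : KummerRootF (F₀ ⊔ G₀') A m) : KummerRootF F₀ A m := by
  have key := finite_and_finrank_le_of_eq_sup (laurentBaseChange Qbar G₀)
    (laurentBaseChange Qbar G₀') (laurentBaseChange Qbar F₀) (laurentBaseChange Qbar (F₀ ⊔ G₀'))
    (baseChange_mono Qbar hG) (baseChange_mono Qbar hGF)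
    (baseChange_mono Qbar (le_sup_left : F₀ ≤ F₀ ⊔ G₀')) (baseChange_sup Qbar F₀ G₀') hfin
  refine kummerRootF_of_le (le_sup_left : F₀ ≤ F₀ ⊔ G₀') A m key.1 ?_ hK
  letI := algebraAlong (baseChangeIncl Qbar (le_sup_left : F₀ ≤ F₀ ⊔ G₀'))
  haveI : Module.Finite ↥(laurentBaseChange Qbar F₀) ↥(laurentBaseChange Qbar (F₀ ⊔ G₀')) := key.1
  have hpos : 0 < Module.finrank ↥(laurentBaseChange Qbar F₀)
      ↥(laurentBaseChange Qbar (F₀ ⊔ G₀')) := Module.finrank_pos
  have hlt : Module.finrank ↥(laurentBaseChange Qbar F₀)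
      ↥(laurentBaseChange Qbar (F₀ ⊔ G₀')) < m := lt_of_le_of_lt (key.2.trans hfr) hem
  exact (Nat.coprime_of_lt_prime hpos.ne' hlt hm).symm

end

end Fermat.Agent.G1.K18
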