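/-
helper95 — G1 / K18 / (BR), analytic part: the point and cusp valuations of the trunk field
`F_N = ℚ̄·F₀(N)` on `J_N - c`, `J_N = J(q^N) = jFormal N ⟨N, _⟩` (the base function of the RED
layer, `xL ℚ̄ N`).

* `ordAt_comp_dPt` : the order of `G(d z)` at `τ` is the order of `G` at `d τ`;
* `valPt_JN_sub` : `valPt N τ (J_N - c) = ellOrder (N τ)` if `J(N τ) = ι c`, and `0` otherwise;
* `valPt_JN_sub_generic` / `_1728` / `_zero` : the values `1`, `2`, `3` at the zeros;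
* `valCusp_JN_neg`, `valCusp_JN_sub_neg` : `J_N` has a pole at every cusp.
-/
import Mathlib
import Fermat.Agent.S24.FrickeBranch
import Fermat.Agent.S24.PtTop
import Fermat.Agent.S24.CuspTop
import Fermat.Agent.S24.CuspHom

set_option autoImplicit false

open UpperHalfPlane ModularForm Filter Topology
open scoped MatrixGroups

noncomputable section

namespace Fermat.Agent.G1.K18.BranchJ

open Fermat.Agent.S24

/-- The point `d τ` of the upper half plane. -/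
abbrev dPt (d : ℕ) (hd : 0 < d) (z : ℍ) : ℍ := HNFMod.affPt d 0 1 hd one_pos z

theorem coe_dPt (d : ℕ) (hd : 0 < d) (z : ℍ) : (dPt d hd z : ℂ) = (d : ℂ) * z :=
  HNFMod.coe_affPt_scale d hd z

/-- The order of `z ↦ G (d z)` at `τ` is the order of `G` at `d τ`. -/
theorem ordAt_comp_dPt (G : ℍ → ℂ) (d : ℕ) (hd : 0 < d) (τ : ℍ) :
    ordAt (fun z => G (dPt d hd z)) τ = ordAt G (dPt d hd τ) := by
  unfold ordAt
  have hd0 : (d : ℂ) ≠ 0 := by exact_mod_cast hd.ne'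
  have h1 : (fun z => G (dPt d hd z)) ∘ ofComplex =ᶠ[𝓝 (τ : ℂ)]
      (G ∘ ofComplex) ∘ (fun z : ℂ => (d : ℂ) * z) := by
    have hopen : {z : ℂ | 0 < z.im} ∈ 𝓝 (τ : ℂ) :=
      (isOpen_lt continuous_const Complex.continuous_im).mem_nhds τ.im_pos
    filter_upwards [hopen] with z hz
    have hz' : 0 < ((d : ℂ) * z).im := by
      have : ((d : ℂ) * z).im = d * z.im := by simp
      rw [this]
      exact mul_pos (by exact_mod_cast hd) hz
    simp only [Function.comp_apply]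
    rw [ofComplex_apply_of_im_pos hz, ofComplex_apply_of_im_pos hz']
    congr 1
    apply UpperHalfPlane.ext
    rw [coe_dPt]
  have h2 : AnalyticAt ℂ (fun z : ℂ => (d : ℂ) * z) (τ : ℂ) := by fun_prop
  have h3 : deriv (fun z : ℂ => (d : ℂ) * z) (τ : ℂ) ≠ 0 := by
    have : deriv (fun z : ℂ => (d : ℂ) * z) (τ : ℂ) = (d : ℂ) := by
      simp
    rw [this]
    exact hd0
  rw [analyticOrderAt_congr h1, analyticOrderAt_comp_of_deriv_ne_zero h2 h3, ← coe_dPt d hd τ]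

variable (N : ℕ) [NeZero N]

theorem fm_X_sub_C (c : KQ) :
    fm N (MvPolynomial.X (⟨N, dvd_rfl⟩ : Dv N) - MvPolynomial.C c) =
      jFormal N ⟨N, dvd_rfl⟩ - algebraMap KQ (FN N) c := by
  simp [fm]

/-- `J_N - c ≠ 0`. -/
theorem JN_sub_ne_zero (c : KQ) : jFormal N ⟨N, dvd_rfl⟩ - algebraMap KQ (FN N) c ≠ 0 := by
  intro h
  apply transcendental_JN N
  rw [sub_eq_zero.mp h]
  exact isAlgebraic_algebraMap c

theorem isRep_JN_sub (c : KQ) :
    IsRep N (jFormal N ⟨N, dvd_rfl⟩ - algebraMap KQ (FN N) c)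
      (MvPolynomial.X (⟨N, dvd_rfl⟩ : Dv N) - MvPolynomial.C c) 1 := by
  refine ⟨?_, ?_⟩
  · rw [map_one]
    exact one_ne_zero
  · rw [map_one, div_one, fm_X_sub_C]

omit [NeZero N] in
theorem ev_X_sub_C (hN : 0 < N) (c : KQ) :
    ev N (MvPolynomial.X (⟨N, dvd_rfl⟩ : Dv N) - MvPolynomial.C c) =
      fun z => (fun w => Jfun w - iotaK c) (dPt N hN z) := by
  funext z
  rw [map_sub, CuspTop.ev_X]
  show Jabd N 0 1 z - ev N (MvPolynomial.C c) z = Jfun (dPt N hN z) - iotaK c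
  rw [CuspTop.ev_C, HNFMod.Jabd_eq N 0 1 hN one_pos]

/-- **The point valuation of `J_N - c`**: the order of `J - ι c` at `N τ`. -/
theorem valPt_JN_sub (hN : 0 < N) (τ : ℍ) (c : KQ) :
    valPt N τ (jFormal N ⟨N, dvd_rfl⟩ - algebraMap KQ (FN N) c) =
      if Jfun (dPt N hN τ) = iotaK c then (JOrd.ellOrder (dPt N hN τ) : ℤ)
      else 0 := by
  rw [PtTop.valPt_eq_of_isRep N τ (isRep_JN_sub N c) (JN_sub_ne_zero N c), ev_X_sub_C N hN c,
    map_one, JPt.ordAt_one, sub_zero]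
  exact (ordAt_comp_dPt (fun w => Jfun w - iotaK c) N hN τ).trans (JPt.ordAt_Jfun_sub _ _)

theorem iotaK_ne_zero {c : KQ} (hc : c ≠ 0) : iotaK c ≠ 0 := fun h' => hc (by
  rw [← map_zero iotaK] at h'
  exact iotaK.injective h')

theorem iotaK_ne_1728 {c : KQ} (hc : c ≠ 1728) : iotaK c ≠ 1728 := fun h' => hc (by
  rw [← map_ofNat iotaK 1728] at h'
  exact iotaK.injective h')

/-- Generic value: every zero of `J_N - c` on `ℍ` is simple. -/
theorem valPt_JN_sub_generic (c : KQ) (hc0 : c ≠ 0) (hc1 : c ≠ 1728) (τ : ℍ)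
    (h : 0 < valPt N τ (jFormal N ⟨N, dvd_rfl⟩ - algebraMap KQ (FN N) c)) :
    valPt N τ (jFormal N ⟨N, dvd_rfl⟩ - algebraMap KQ (FN N) c) = 1 := by
  have hN : 0 < N := Nat.pos_of_ne_zero (NeZero.ne N)
  rw [valPt_JN_sub N hN τ c] at h ⊢
  split_ifs at h ⊢ with hτ
  · rw [JPt.ellOrder_of_generic _ (hτ ▸ iotaK_ne_zero hc0) (hτ ▸ iotaK_ne_1728 hc1)]
    rfl
  · exact absurd h (lt_irrefl _)

/-- Over `1728`: every zero of `J_N - 1728` on `ℍ` is double. -/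
theorem valPt_JN_sub_1728 (τ : ℍ)
    (h : 0 < valPt N τ (jFormal N ⟨N, dvd_rfl⟩ - algebraMap KQ (FN N) 1728)) :
    valPt N τ (jFormal N ⟨N, dvd_rfl⟩ - algebraMap KQ (FN N) 1728) = 2 := by
  have hN : 0 < N := Nat.pos_of_ne_zero (NeZero.ne N)
  have e : iotaK 1728 = (1728 : ℂ) := map_ofNat iotaK 1728
  rw [valPt_JN_sub N hN τ 1728] at h ⊢
  split_ifs at h ⊢ with hτ
  · rw [JPt.ellOrder_of_eq_1728 _ (hτ.trans e)]
    rfl
  · exact absurd h (lt_irrefl _)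

/-- Over `0`: every zero of `J_N` on `ℍ` is triple. -/
theorem valPt_JN_sub_zero (τ : ℍ)
    (h : 0 < valPt N τ (jFormal N ⟨N, dvd_rfl⟩ - algebraMap KQ (FN N) 0)) :
    valPt N τ (jFormal N ⟨N, dvd_rfl⟩ - algebraMap KQ (FN N) 0) = 3 := by
  have hN : 0 < N := Nat.pos_of_ne_zero (NeZero.ne N)
  have e : iotaK 0 = (0 : ℂ) := map_zero _
  rw [valPt_JN_sub N hN τ 0] at h ⊢
  split_ifs at h ⊢ with hτ
  · rw [JPt.ellOrder_of_eq_zero _ (hτ.trans e)]
    rfl
  · exact absurd h (lt_irrefl _)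

/-- `J_N ≠ 0`. -/
theorem JN_ne_zero : jFormal N ⟨N, dvd_rfl⟩ ≠ 0 := by
  have h := JN_sub_ne_zero N 0
  rwa [map_zero, sub_zero] at h

/-- **`J_N` has a pole at every cusp.** -/
theorem valCusp_JN_neg (g : SL(2, ℤ)) : valCusp N g (jFormal N ⟨N, dvd_rfl⟩) < 0 := by
  have hN : 0 < N := Nat.pos_of_ne_zero (NeZero.ne N)
  have hrep : IsRep N (jFormal N ⟨N, dvd_rfl⟩) (MvPolynomial.X (⟨N, dvd_rfl⟩ : Dv N)) 1 := by
    refine ⟨?_, ?_⟩
    · rw [map_one]
      exact one_ne_zero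
    · rw [map_one, div_one, CuspTop.fm_X]
  rw [CuspTop.valCusp_eq N hrep (JN_ne_zero N) g, map_one, CuspTop.ev_X]
  obtain ⟨a, b, e, hae, -, ha, he, -, htr⟩ := HNFMod.trans_Jabd g N hN
  have h1 : trans g (1 : ℍ → ℂ) = fun _ => (1 : ℂ) := rfl
  have hdvd : e ∣ N := Dvd.intro_left a hae
  rw [h1, htr, CuspTop.ordInf_const N hN 1 one_ne_zero, CuspTop.ordInf_Jabd N a b e hN ha he hdvd,
    sub_zero]
  have hpos : 0 < a * (N / e) := Nat.mul_pos ha (Nat.div_pos (Nat.le_of_dvd hN hdvd) he)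
  have : (0 : ℤ) < ((a * (N / e) : ℕ) : ℤ) := by exact_mod_cast hpos
  omega

/-- `J_N - c` has a pole at every cusp. -/
theorem valCusp_JN_sub_neg (g : SL(2, ℤ)) (c : KQ) :
    valCusp N g (jFormal N ⟨N, dvd_rfl⟩ - algebraMap KQ (FN N) c) < 0 := by
  by_cases hc : c = 0
  · rw [hc, map_zero, sub_zero]
    exact valCusp_JN_neg N g
  · have hw := QExp.isRawVal_valCusp N g
    have hc' : -algebraMap KQ (FN N) c ≠ 0 :=
      neg_ne_zero.mpr ((map_ne_zero (algebraMap KQ (FN N))).mpr hc)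
    have h0 : valCusp N g (-algebraMap KQ (FN N) c) = 0 := by
      rw [hw.map_neg ((map_ne_zero (algebraMap KQ (FN N))).mpr hc)]
      exact hw.map_algebraMap c hc
    have h1 := hw.map_add_of_lt (JN_ne_zero N) hc' (by rw [h0]; exact valCusp_JN_neg N g)
    rw [sub_eq_add_neg, h1]
    exact valCusp_JN_neg N g

end Fermat.Agent.G1.K18.BranchJ
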