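/-
helper95 — G1 / K18 / (BR): the branch hypotheses of `Lib/RedK/ExtX.k18_ext` for the field
`F₁ = ℚ̄·F1a(M, a)` over the trunk `ℚ̄·F₀(M a)`, for the three base functions of the RED layer
(`Data.ofJ`, `ofHaupt2`, `ofHaupt3`).

The only input on `F₁` is the place dictionary restricted to the trunk field,

  `PlaceCases1 M a` : every place `P` of `F₁` is a point place (`P.ord (incl f) = valPt τ f`
  for all `f` in the trunk: EXACT index `1`, no elliptic points) or a cusp place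
  (`e * P.ord (incl f) = valCusp g f`, `e > 0`).

From it: the branch data of `J_N = J(q^N)` in `F₁` (`ord_JN1_sub_generic`, `_1728`, `_zero`),
the simple zeros of `x - c` off the branch values for the three base functions, and the six
statements `hbr_ofJ`, `hbr_ofJ_inv`, `hbr_ofHaupt2`, `hbr_ofHaupt2_inv`, `hbr_ofHaupt3`,
`hbr_ofHaupt3_inv` in the literal shape of `k18_ext` (with the inclusion `Dict.incl0K`).
-/
import Mathlib
import Fermat.Agent.G1.K18.BranchAbs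
import Fermat.Agent.G1.K18.BranchJ
import Fermat.Agent.G1.Dict.Defs
import Fermat.Agent.Lib.Red.BranchH

set_option autoImplicit false
set_option linter.unusedSectionVars false

open UpperHalfPlane AlgebraicCurve ModularCurve
open scoped MatrixGroups

noncomputable section

namespace Fermat.Agent.G1.K18

open Fermat.Agent.S24 Fermat.Agent.ESJ.Jac Fermat.Agent.G1.Dict Fermat.Agent.Lib.Red
  Fermat.Agent.Lib.Red.BaseFn

variable (M a : ℕ) [NeZero M] [NeZero a]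

/-- **The dictionary input of (BR).**  Every place of `ℚ̄·F1a(M, a)` restricts to the trunk
field `ℚ̄·F₀(M a)` as a point valuation (exact index `1`) or as a positive multiple of a cusp
valuation. -/
def PlaceCases1 : Prop :=
  ∀ P : Place KQ (F1aK KQ M a),
    (∃ τ : ℍ, ∀ f : FNK KQ (M * a), f ≠ 0 →
        valPtK iotaK (M * a) τ f = P.ord (incl0K KQ M a f)) ∨
    (∃ (g : SL(2, ℤ)) (e : ℕ), 0 < e ∧ ∀ f : FNK KQ (M * a), f ≠ 0 →
        valCuspK iotaK (M * a) g f = e * P.ord (incl0K KQ M a f))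

/-- The image of `J_N = J(q^N)`, `N = M a`, in `ℚ̄·F1a(M, a)`. -/
def JN1 : F1aK KQ M a := incl0K KQ M a (jFormal (M * a) ⟨M * a, dvd_rfl⟩)

theorem incl0K_sub_algebraMap (f : FNK KQ (M * a)) (c : KQ) :
    incl0K KQ M a f - algebraMap KQ (F1aK KQ M a) c =
      incl0K KQ M a (f - algebraMap KQ (FNK KQ (M * a)) c) := by
  rw [map_sub, AlgHom.commutes]

variable {M a}

/-- `F₁ / ℚ̄(J_N)` is unramified over every `c ∉ {0, 1728}`. -/
theorem ord_JN1_sub_generic (hP : PlaceCases1 M a) (c : KQ) (hc0 : c ≠ 0) (hc1 : c ≠ 1728)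
    (v : Place KQ (F1aK KQ M a)) (hv : 0 < v.ord (JN1 M a - algebraMap KQ (F1aK KQ M a) c)) :
    v.ord (JN1 M a - algebraMap KQ (F1aK KQ M a) c) = 1 := by
  rw [JN1, incl0K_sub_algebraMap] at hv ⊢
  rcases hP v with ⟨τ, hτ⟩ | ⟨g, e, he, hg⟩
  · have h1 := hτ _ (BranchJ.JN_sub_ne_zero (M * a) c)
    rw [← h1] at hv ⊢
    exact BranchJ.valPt_JN_sub_generic (M * a) c hc0 hc1 τ hv
  · have h1 := hg _ (BranchJ.JN_sub_ne_zero (M * a) c)
    have h2 := BranchJ.valCusp_JN_sub_neg (M * a) g c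
    have h3 : valCuspK iotaK (M * a) g (jFormal (M * a) ⟨M * a, dvd_rfl⟩ -
        algebraMap KQ (FNK KQ (M * a)) c) < 0 := h2
    rw [h1] at h3
    have he' : (0 : ℤ) < (e : ℤ) := by exact_mod_cast he
    nlinarith

/-- Over `1728` every zero of `J_N - 1728` in `F₁` is double. -/
theorem ord_JN1_sub_1728 (hP : PlaceCases1 M a)
    (v : Place KQ (F1aK KQ M a))
    (hv : 0 < v.ord (JN1 M a - algebraMap KQ (F1aK KQ M a) 1728)) :
    v.ord (JN1 M a - algebraMap KQ (F1aK KQ M a) 1728) = 1 ∨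
      v.ord (JN1 M a - algebraMap KQ (F1aK KQ M a) 1728) = 2 := by
  right
  rw [JN1, incl0K_sub_algebraMap] at hv ⊢
  rcases hP v with ⟨τ, hτ⟩ | ⟨g, e, he, hg⟩
  · have h1 := hτ _ (BranchJ.JN_sub_ne_zero (M * a) 1728)
    rw [← h1] at hv ⊢
    exact BranchJ.valPt_JN_sub_1728 (M * a) τ hv
  · have h1 := hg _ (BranchJ.JN_sub_ne_zero (M * a) 1728)
    have h3 : valCuspK iotaK (M * a) g (jFormal (M * a) ⟨M * a, dvd_rfl⟩ -
        algebraMap KQ (FNK KQ (M * a)) 1728) < 0 := BranchJ.valCusp_JN_sub_neg (M * a) g 1728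
    rw [h1] at h3
    have he' : (0 : ℤ) < (e : ℤ) := by exact_mod_cast he
    nlinarith

/-- Over `0` every zero of `J_N` in `F₁` is triple. -/
theorem ord_JN1_sub_zero (hP : PlaceCases1 M a)
    (v : Place KQ (F1aK KQ M a))
    (hv : 0 < v.ord (JN1 M a - algebraMap KQ (F1aK KQ M a) 0)) :
    v.ord (JN1 M a - algebraMap KQ (F1aK KQ M a) 0) = 1 ∨
      v.ord (JN1 M a - algebraMap KQ (F1aK KQ M a) 0) = 3 := by
  right
  rw [JN1, incl0K_sub_algebraMap] at hv ⊢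
  rcases hP v with ⟨τ, hτ⟩ | ⟨g, e, he, hg⟩
  · have h1 := hτ _ (BranchJ.JN_sub_ne_zero (M * a) 0)
    rw [← h1] at hv ⊢
    exact BranchJ.valPt_JN_sub_zero (M * a) τ hv
  · have h1 := hg _ (BranchJ.JN_sub_ne_zero (M * a) 0)
    have h3 : valCuspK iotaK (M * a) g (jFormal (M * a) ⟨M * a, dvd_rfl⟩ -
        algebraMap KQ (FNK KQ (M * a)) 0) < 0 := BranchJ.valCusp_JN_sub_neg (M * a) g 0
    rw [h1] at h3
    have he' : (0 : ℤ) < (e : ℤ) := by exact_mod_cast he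
    nlinarith

/-! ### Simple zeros off the branch values, for the three base functions -/

section Base

variable {A : ValuationSubring KQ} {k : Type} [Field k] {π : A →+* k}

theorem incl0K_xL : incl0K KQ M a (xL KQ (M * a)) = JN1 M a := by
  rw [BranchInst.xL_eq_jFormal]
  rfl

/-- (BR) for `x = J(q^N)`: simple zeros of `x - c`, `c ∉ {0, 1728}`. -/
theorem ord_ofJ_sub_eq_one (hP : PlaceCases1 M a) (c : KQ) (hc0 : c ≠ 0) (hc1 : c ≠ 1728)
    (v : Place KQ (F1aK KQ M a))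
    (hv : 0 < v.ord (incl0K KQ M a (Data.ofJ A π (M * a)).x -
      algebraMap KQ (F1aK KQ M a) c)) :
    v.ord (incl0K KQ M a (Data.ofJ A π (M * a)).x - algebraMap KQ (F1aK KQ M a) c) = 1 := by
  rw [Data.ofJ_x, incl0K_xL] at hv ⊢
  exact ord_JN1_sub_generic hP c hc0 hc1 v hv

/-- (BR) for the Hauptmodul `x₂` (`M a = m * 2`): simple zeros of `x - c`, `c ∉ {0, -64}`. -/
theorem ord_ofHaupt2_sub_eq_one (hP : PlaceCases1 M a) (m : ℕ) [NeZero m] (hN : M * a = m * 2)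
    (h2 : (2 : k) ≠ 0) (c : KQ) (hc0 : c ≠ 0) (hc1 : c ≠ -64)
    (v : Place KQ (F1aK KQ M a))
    (hv : 0 < v.ord (incl0K KQ M a (ofHaupt2 A π (M * a) m hN h2).x -
      algebraMap KQ (F1aK KQ M a) c)) :
    v.ord (incl0K KQ M a (ofHaupt2 A π (M * a) m hN h2).x -
      algebraMap KQ (F1aK KQ M a) c) = 1 := by
  have hrel : JN1 M a * incl0K KQ M a (ofHaupt2 A π (M * a) m hN h2).x ^ 2 =
      (incl0K KQ M a (ofHaupt2 A π (M * a) m hN h2).x + 256) ^ 3 := by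
    have h := congrArg (incl0K KQ M a) (ofHaupt2_rel (A := A) (π := π) (M * a) m hN h2)
    rw [map_mul, map_pow, map_pow, map_add, incl0K_xL, map_ofNat] at h
    exact h
  exact BranchAbs.ord_sub_eq_one_two (fun c' h0 h1 v hv => ord_JN1_sub_generic hP c' h0 h1 v hv)
    (ord_JN1_sub_1728 hP) (ord_JN1_sub_zero hP) hrel c hc0 hc1 v hv

/-- (BR) for the Hauptmodul `x₃` (`M a = m * 3`): simple zeros of `x - c`, `c ∉ {0, -27}`. -/
theorem ord_ofHaupt3_sub_eq_one (hP : PlaceCases1 M a) (m : ℕ) [NeZero m] (hN : M * a = m * 3)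
    (h3 : (3 : k) ≠ 0) (c : KQ) (hc0 : c ≠ 0) (hc1 : c ≠ -27)
    (v : Place KQ (F1aK KQ M a))
    (hv : 0 < v.ord (incl0K KQ M a (ofHaupt3 A π (M * a) m hN h3).x -
      algebraMap KQ (F1aK KQ M a) c)) :
    v.ord (incl0K KQ M a (ofHaupt3 A π (M * a) m hN h3).x -
      algebraMap KQ (F1aK KQ M a) c) = 1 := by
  have hrel : JN1 M a * incl0K KQ M a (ofHaupt3 A π (M * a) m hN h3).x ^ 3 =
      (incl0K KQ M a (ofHaupt3 A π (M * a) m hN h3).x + 27) *
        (incl0K KQ M a (ofHaupt3 A π (M * a) m hN h3).x + 243) ^ 3 := by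
    have h := congrArg (incl0K KQ M a) (ofHaupt3_rel (A := A) (π := π) (M * a) m hN h3)
    rw [map_mul, map_pow, map_mul, map_pow, map_add, map_add, incl0K_xL, map_ofNat,
      map_ofNat] at h
    exact h
  exact BranchAbs.ord_sub_eq_one_three
    (fun c' h0 h1 v hv => ord_JN1_sub_generic hP c' h0 h1 v hv)
    (ord_JN1_sub_1728 hP) (ord_JN1_sub_zero hP) hrel c hc0 hc1 v hv

/-! ### The six (BR) statements in the shape of `Lib/RedK/ExtX.k18_ext` -/

theorem incl0K_ne_zero {x : FNK KQ (M * a)} (hx : x ≠ 0) : incl0K KQ M a x ≠ 0 :=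
  (map_ne_zero_iff _ (incl0K_injective KQ M a)).mpr hx

/-- **(BR) for `Data.ofJ`** (residue characteristic `≥ 5`). -/
theorem hbr_ofJ (hP : PlaceCases1 M a) (hsurj : Function.Surjective π) (h : (1728 : k) ≠ 0)
    (γ : k) :
    ∃ c₀ : A, π c₀ = γ ∧ ∀ c : A, π c = γ → c ≠ c₀ →
      ∀ P : Place KQ (F1aK KQ M a),
        0 < P.ord (incl0K KQ M a (Data.ofJ A π (M * a)).x -
          algebraMap KQ (F1aK KQ M a) (c : KQ)) →
        P.ord (incl0K KQ M a (Data.ofJ A π (M * a)).x -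
          algebraMap KQ (F1aK KQ M a) (c : KQ)) = 1 :=
  BranchH.hbr_pair hsurj _ (1728 : A) (by rw [map_ofNat]; exact h)
    (fun c hc0 hc1 P hP' => ord_ofJ_sub_eq_one hP c hc0 hc1 P hP') γ

/-- **(BR) in the chart at infinity for `Data.ofJ`**. -/
theorem hbr_ofJ_inv (hP : PlaceCases1 M a) (hπ : ∀ a : A, ¬ IsUnit a → π a = 0)
    (hNk : ((M * a : ℕ) : k) ≠ 0) (hsurj : Function.Surjective π) (h : (1728 : k) ≠ 0)
    (γ : k) :
    ∃ c₀ : A, π c₀ = γ ∧ ∀ c : A, π c = γ → c ≠ c₀ →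
      ∀ P : Place KQ (F1aK KQ M a),
        0 < P.ord ((incl0K KQ M a (Data.ofJ A π (M * a)).x)⁻¹ -
          algebraMap KQ (F1aK KQ M a) (c : KQ)) →
        P.ord ((incl0K KQ M a (Data.ofJ A π (M * a)).x)⁻¹ -
          algebraMap KQ (F1aK KQ M a) (c : KQ)) = 1 :=
  BranchH.hbr_pair_inv hsurj (incl0K_ne_zero ((Data.ofJ A π (M * a)).x_ne_zero hπ hNk))
    (1728 : A) (by rw [map_ofNat]; exact h)
    (fun c hc0 hc1 P hP' => ord_ofJ_sub_eq_one hP c hc0 hc1 P hP') γ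

/-- **(BR) for `ofHaupt2`** (`M a = m * 2`, residue characteristic `≠ 2`). -/
theorem hbr_ofHaupt2 (hP : PlaceCases1 M a) (m : ℕ) [NeZero m] (hN : M * a = m * 2)
    (hsurj : Function.Surjective π) (h2 : (2 : k) ≠ 0) (γ : k) :
    ∃ c₀ : A, π c₀ = γ ∧ ∀ c : A, π c = γ → c ≠ c₀ →
      ∀ P : Place KQ (F1aK KQ M a),
        0 < P.ord (incl0K KQ M a (ofHaupt2 A π (M * a) m hN h2).x -
          algebraMap KQ (F1aK KQ M a) (c : KQ)) →
        P.ord (incl0K KQ M a (ofHaupt2 A π (M * a) m hN h2).x -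
          algebraMap KQ (F1aK KQ M a) (c : KQ)) = 1 :=
  BranchH.hbr_pair hsurj _ (-64 : A) (BranchH.map_neg_64_ne_zero h2)
    (fun c hc0 hc1 P hP' => ord_ofHaupt2_sub_eq_one hP m hN h2 c hc0 hc1 P hP') γ

/-- **(BR) in the chart at infinity for `ofHaupt2`**. -/
theorem hbr_ofHaupt2_inv (hP : PlaceCases1 M a) (m : ℕ) [NeZero m] (hN : M * a = m * 2)
    (hπ : ∀ a : A, ¬ IsUnit a → π a = 0) (hNk : ((M * a : ℕ) : k) ≠ 0)
    (hsurj : Function.Surjective π) (h2 : (2 : k) ≠ 0) (γ : k) :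
    ∃ c₀ : A, π c₀ = γ ∧ ∀ c : A, π c = γ → c ≠ c₀ →
      ∀ P : Place KQ (F1aK KQ M a),
        0 < P.ord ((incl0K KQ M a (ofHaupt2 A π (M * a) m hN h2).x)⁻¹ -
          algebraMap KQ (F1aK KQ M a) (c : KQ)) →
        P.ord ((incl0K KQ M a (ofHaupt2 A π (M * a) m hN h2).x)⁻¹ -
          algebraMap KQ (F1aK KQ M a) (c : KQ)) = 1 :=
  BranchH.hbr_pair_inv hsurj
    (incl0K_ne_zero ((ofHaupt2 A π (M * a) m hN h2).x_ne_zero hπ hNk))
    (-64 : A) (BranchH.map_neg_64_ne_zero h2)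
    (fun c hc0 hc1 P hP' => ord_ofHaupt2_sub_eq_one hP m hN h2 c hc0 hc1 P hP') γ

/-- **(BR) for `ofHaupt3`** (`M a = m * 3`, residue characteristic `≠ 3`). -/
theorem hbr_ofHaupt3 (hP : PlaceCases1 M a) (m : ℕ) [NeZero m] (hN : M * a = m * 3)
    (hsurj : Function.Surjective π) (h3 : (3 : k) ≠ 0) (γ : k) :
    ∃ c₀ : A, π c₀ = γ ∧ ∀ c : A, π c = γ → c ≠ c₀ →
      ∀ P : Place KQ (F1aK KQ M a),
        0 < P.ord (incl0K KQ M a (ofHaupt3 A π (M * a) m hN h3).x -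
          algebraMap KQ (F1aK KQ M a) (c : KQ)) →
        P.ord (incl0K KQ M a (ofHaupt3 A π (M * a) m hN h3).x -
          algebraMap KQ (F1aK KQ M a) (c : KQ)) = 1 :=
  BranchH.hbr_pair hsurj _ (-27 : A) (BranchH.map_neg_27_ne_zero h3)
    (fun c hc0 hc1 P hP' => ord_ofHaupt3_sub_eq_one hP m hN h3 c hc0 hc1 P hP') γ

/-- **(BR) in the chart at infinity for `ofHaupt3`**. -/
theorem hbr_ofHaupt3_inv (hP : PlaceCases1 M a) (m : ℕ) [NeZero m] (hN : M * a = m * 3)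
    (hπ : ∀ a : A, ¬ IsUnit a → π a = 0) (hNk : ((M * a : ℕ) : k) ≠ 0)
    (hsurj : Function.Surjective π) (h3 : (3 : k) ≠ 0) (γ : k) :
    ∃ c₀ : A, π c₀ = γ ∧ ∀ c : A, π c = γ → c ≠ c₀ →
      ∀ P : Place KQ (F1aK KQ M a),
        0 < P.ord ((incl0K KQ M a (ofHaupt3 A π (M * a) m hN h3).x)⁻¹ -
          algebraMap KQ (F1aK KQ M a) (c : KQ)) →
        P.ord ((incl0K KQ M a (ofHaupt3 A π (M * a) m hN h3).x)⁻¹ -
          algebraMap KQ (F1aK KQ M a) (c : KQ)) = 1 :=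
  BranchH.hbr_pair_inv hsurj
    (incl0K_ne_zero ((ofHaupt3 A π (M * a) m hN h3).x_ne_zero hπ hNk))
    (-27 : A) (BranchH.map_neg_27_ne_zero h3)
    (fun c hc0 hc1 P hP' => ord_ofHaupt3_sub_eq_one hP m hN h3 c hc0 hc1 P hP') γ

end Base

end Fermat.Agent.G1.K18
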