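/-
helper95 — G1 / K18 / (BR): the dictionary input `PlaceCases1 M a` of `G1/K18/Branch1.lean`
from the dictionary structure `Dict.IsDict1 iotaK M a` of `G1/Dict/Defs.lean`.

* `fm1K_rename_inl`, `ev1K_rename_inl` : a polynomial in the trunk generators `j(q^d)` is a
  polynomial in the generators of `F1a`;
* `valPt1K_incl0K`, `valCusp1K_incl0K` : the point and cusp valuations of `K·F1a(M, a)`
  restrict to those of the trunk field `K·F₀(M a)`;
* `placeCases1_of_isDict1 : Dict.IsDict1 iotaK M a → PlaceCases1 M a`.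
-/
import Mathlib
import Fermat.Agent.G1.K18.Branch1
import Fermat.Agent.ESJ.Dict.Main

set_option autoImplicit false
set_option linter.unusedSectionVars false

open UpperHalfPlane AlgebraicCurve ModularCurve
open scoped MatrixGroups

noncomputable section

namespace Fermat.Agent.G1.K18

open Fermat.Agent.S24 Fermat.Agent.ESJ.Jac Fermat.Agent.G1.Dict

section General

variable {K : Type} [Field K] [Algebra ℚ K] (ι : K →+* ℂ) (M a : ℕ) [NeZero M] [NeZero a]

/-- A polynomial in the trunk generators, evaluated formally in `K·F1a(M, a)`. -/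
theorem fm1K_rename_inl (P : MvPolynomial (Dv (M * a)) K) :
    fm1K K M a (MvPolynomial.rename Sum.inl P) = incl0K K M a (fmK K (M * a) P) := by
  have h : (fm1K K M a).comp (MvPolynomial.rename Sum.inl) =
      (incl0K K M a).comp (fmK K (M * a)) := by
    apply MvPolynomial.algHom_ext
    intro d
    apply Subtype.ext
    simp only [AlgHom.comp_apply, MvPolynomial.rename_X, fm1K, fmK, MvPolynomial.aeval_X,
      coe_incl0K]
    rfl
  exact congrArg (fun φ : MvPolynomial (Dv (M * a)) K →ₐ[K] F1aK K M a => φ P) h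

/-- A polynomial in the trunk generators, evaluated analytically. -/
theorem ev1K_rename_inl (P : MvPolynomial (Dv (M * a)) K) :
    ev1K ι M a (MvPolynomial.rename Sum.inl P) = evK ι (M * a) P := by
  unfold ev1K evK
  rw [MvPolynomial.coe_eval₂Hom, MvPolynomial.coe_eval₂Hom, MvPolynomial.eval₂_rename]
  rfl

/-- A representation in the trunk gives a representation in `K·F1a(M, a)`. -/
theorem isRep1K_incl0K {f : FNK K (M * a)} {P Q : MvPolynomial (Dv (M * a)) K}
    (h : IsRepK (M * a) f P Q) :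
    IsRep1K M a (incl0K K M a f) (MvPolynomial.rename Sum.inl P)
      (MvPolynomial.rename Sum.inl Q) := by
  refine ⟨?_, ?_⟩
  · rw [fm1K_rename_inl]
    exact (map_ne_zero_iff _ (incl0K_injective K M a)).mpr h.1
  · rw [fm1K_rename_inl, fm1K_rename_inl, ← map_div₀, ← h.2]

variable {ι M a}

/-- The point valuations of `K·F1a(M, a)` restrict to those of the trunk. -/
theorem valPt1K_incl0K (hD : IsDict1 ι M a) (hD0 : Fermat.Agent.ESJ.Dict.IsDict ι (M * a))
    (τ : ℍ) (f : FNK K (M * a)) (hf : f ≠ 0) :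
    valPt1K ι M a τ (incl0K K M a f) = valPtK ι (M * a) τ f := by
  obtain ⟨P, Q, hrep⟩ := hD0.exists_isRepK f
  have hf' : incl0K K M a f ≠ 0 := (map_ne_zero_iff _ (incl0K_injective K M a)).mpr hf
  rw [hD.valPt1K_eq_of_isRep1K τ _ _ _ (isRep1K_incl0K M a hrep) hf',
    hD0.valPtK_eq_of_isRepK τ f P Q hrep hf, ev1K_rename_inl, ev1K_rename_inl]

/-- The cusp valuations of `K·F1a(M, a)` restrict to those of the trunk. -/
theorem valCusp1K_incl0K (hD : IsDict1 ι M a) (hD0 : Fermat.Agent.ESJ.Dict.IsDict ι (M * a))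
    (g : SL(2, ℤ)) (f : FNK K (M * a)) (hf : f ≠ 0) :
    valCusp1K ι M a g (incl0K K M a f) = valCuspK ι (M * a) g f := by
  obtain ⟨P, Q, hrep⟩ := hD0.exists_isRepK f
  have hf' : incl0K K M a f ≠ 0 := (map_ne_zero_iff _ (incl0K_injective K M a)).mpr hf
  rw [hD.valCusp1K_eq_of_isRep1K g _ _ _ (isRep1K_incl0K M a hrep) hf',
    hD0.valCuspK_eq_of_isRepK g f P Q hrep hf, ev1K_rename_inl, ev1K_rename_inl]

end General

variable {M a : ℕ} [NeZero M] [NeZero a]

/-- **The dictionary input of (BR) from `IsDict1`.** -/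
theorem placeCases1_of_isDict1 (hD : IsDict1 iotaK M a) : PlaceCases1 M a := by
  have hD0 := Fermat.Agent.ESJ.Dict.isDict_Qbar (M * a)
  intro P
  rcases hD.place_cases P with ⟨τ, hτ⟩ | ⟨g, e, w, hw, hew, -, hg⟩
  · refine Or.inl ⟨τ, fun f hf => ?_⟩
    rw [← valPt1K_incl0K hD hD0 τ f hf]
    exact hτ _ ((map_ne_zero_iff _ (incl0K_injective KQ M a)).mpr hf)
  · refine Or.inr ⟨g, e, ?_, fun f hf => ?_⟩
    · rcases Nat.eq_zero_or_pos e with h0 | h0
      · rw [h0, zero_mul] at hew
        exact absurd hew.symm (NeZero.ne (M * a))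
      · exact h0
    · rw [← valCusp1K_incl0K hD hD0 g f hf]
      exact hg _ ((map_ne_zero_iff _ (incl0K_injective KQ M a)).mpr hf)

end Fermat.Agent.G1.K18
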