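/-
helper95 — G1 / K18 / (BR), algebraic part: the unramifiedness criteria of
`S24/HauptBranch.lean` for an ARBITRARY function field `F / ℚ̄` (there they are stated for the
trunk field `F_N` only).

Given `J : F` with the branch behaviour of `j` (`ord (J - c') = 1` at the zeros of `J - c'` for
`c' ∉ {0, 1728}`, `∈ {1, 2}` over `1728`, `∈ {1, 3}` over `0`):

* `ord_sub_eq_one_of_rel` : if `J * Q(x) = P(x)` then `x - c` has simple zeros under the
  multiplicity condition of `HauptBranch`;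
* `ord_sub_eq_one_two` : `J * x ^ 2 = (x + 256) ^ 3` ⟹ simple zeros of `x - c`, `c ∉ {0, -64}`;
* `ord_sub_eq_one_three` : `J * x ^ 3 = (x + 27) * (x + 243) ^ 3` ⟹ simple zeros of `x - c`,
  `c ∉ {0, -27}`.
-/
import Mathlib
import Fermat.Agent.S24.HauptBranch

set_option autoImplicit false

open Polynomial AlgebraicCurve

noncomputable section

namespace Fermat.Agent.G1.K18.BranchAbs

open Fermat.Agent.S24

variable {F : Type*} [Field F] [Algebra KQ F]

/-- **Unramifiedness criterion** over an arbitrary function field, for a base function `J` with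
the branch behaviour of `j`. -/
theorem ord_sub_eq_one_of_rel {J : F}
    (hgen : ∀ c' : KQ, c' ≠ 0 → c' ≠ 1728 → ∀ v : Place KQ F,
      0 < v.ord (J - algebraMap KQ F c') → v.ord (J - algebraMap KQ F c') = 1)
    (h1728 : ∀ v : Place KQ F, 0 < v.ord (J - algebraMap KQ F 1728) →
      v.ord (J - algebraMap KQ F 1728) = 1 ∨ v.ord (J - algebraMap KQ F 1728) = 2)
    (hzero : ∀ v : Place KQ F, 0 < v.ord (J - algebraMap KQ F 0) →
      v.ord (J - algebraMap KQ F 0) = 1 ∨ v.ord (J - algebraMap KQ F 0) = 3)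
    {x : F} {P Q : KQ[X]}
    (hrel : J * aeval x Q = aeval x P) {c : KQ} (hQ : Q.eval c ≠ 0)
    (hne : P - C (P.eval c / Q.eval c) * Q ≠ 0)
    (hmult : (P.eval c / Q.eval c ≠ 0 ∧ P.eval c / Q.eval c ≠ 1728) ∨
      2 ≤ rootMultiplicity c (P - C (P.eval c / Q.eval c) * Q))
    (v : Place KQ F) (hv : 0 < v.ord (x - algebraMap KQ F c)) :
    v.ord (x - algebraMap KQ F c) = 1 := by
  have key := HauptBranch.ord_sub_eq_mul v hrel hQ hne hv
  set c' : KQ := P.eval c / Q.eval c with hc'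
  set m : ℕ := rootMultiplicity c (P - C c' * Q) with hm
  have hmpos : 0 < m := by
    rw [hm, rootMultiplicity_pos hne, IsRoot.def, eval_sub, eval_mul, eval_C, hc',
      div_mul_cancel₀ _ hQ, sub_self]
  have hpos : 0 < v.ord (J - algebraMap KQ F c') := by
    rw [key]
    positivity
  by_cases h0 : c' = 0
  · rcases hmult with ⟨h, -⟩ | h2
    · exact absurd h0 h
    · have h3 := hzero v (by rw [← h0]; exact hpos)
      rw [← h0, key] at h3
      have hm2 : (2 : ℤ) ≤ (m : ℤ) := by exact_mod_cast h2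
      rcases h3 with h3 | h3 <;> nlinarith
  by_cases h1 : c' = 1728
  · rcases hmult with ⟨-, h⟩ | h2
    · exact absurd h1 h
    · have h3 := h1728 v (by rw [← h1]; exact hpos)
      rw [← h1, key] at h3
      have hm2 : (2 : ℤ) ≤ (m : ℤ) := by exact_mod_cast h2
      rcases h3 with h3 | h3 <;> nlinarith
  · have h3 := hgen c' h0 h1 v hpos
    rw [key] at h3
    have hm1 : (1 : ℤ) ≤ (m : ℤ) := by exact_mod_cast hmpos
    nlinarith

/-- **Level 2.**  If `J * x ^ 2 = (x + 256) ^ 3` for a base function `J` with the branch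
behaviour of `j`, then `F / ℚ̄(x)` is unramified over every `c ∉ {0, -64}`. -/
theorem ord_sub_eq_one_two {J x : F}
    (hgen : ∀ c' : KQ, c' ≠ 0 → c' ≠ 1728 → ∀ v : Place KQ F,
      0 < v.ord (J - algebraMap KQ F c') → v.ord (J - algebraMap KQ F c') = 1)
    (h1728 : ∀ v : Place KQ F, 0 < v.ord (J - algebraMap KQ F 1728) →
      v.ord (J - algebraMap KQ F 1728) = 1 ∨ v.ord (J - algebraMap KQ F 1728) = 2)
    (hzero : ∀ v : Place KQ F, 0 < v.ord (J - algebraMap KQ F 0) →
      v.ord (J - algebraMap KQ F 0) = 1 ∨ v.ord (J - algebraMap KQ F 0) = 3)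
    (hrel : J * x ^ 2 = (x + 256) ^ 3) (c : KQ) (hc0 : c ≠ 0) (hc1 : c ≠ -64)
    (v : Place KQ F) (hv : 0 < v.ord (x - algebraMap KQ F c)) :
    v.ord (x - algebraMap KQ F c) = 1 := by
  have hQ : (X ^ 2 : KQ[X]).eval c ≠ 0 := by
    simp only [eval_pow, eval_X]
    exact pow_ne_zero 2 hc0
  have hP : ((X + 256) ^ 3 : KQ[X]).eval c = (c + 256) ^ 3 := by
    simp only [eval_pow, eval_add, eval_X, eval_ofNat]
  have hQ' : (X ^ 2 : KQ[X]).eval c = c ^ 2 := by simp only [eval_pow, eval_X]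
  have hrel' : J * aeval x (X ^ 2 : KQ[X]) = aeval x ((X + 256) ^ 3 : KQ[X]) := by
    simp only [map_pow, map_add, aeval_X, map_ofNat]
    exact hrel
  refine ord_sub_eq_one_of_rel hgen h1728 hzero hrel' hQ ?_ ?_ v hv
  · rw [hP, hQ']
    exact HauptBranch.hne_two _
  · rw [hP, hQ']
    exact HauptBranch.hmult_two hc0 hc1

/-- **Level 3.**  If `J * x ^ 3 = (x + 27) * (x + 243) ^ 3` for a base function `J` with the
branch behaviour of `j`, then `F / ℚ̄(x)` is unramified over every `c ∉ {0, -27}`. -/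
theorem ord_sub_eq_one_three {J x : F}
    (hgen : ∀ c' : KQ, c' ≠ 0 → c' ≠ 1728 → ∀ v : Place KQ F,
      0 < v.ord (J - algebraMap KQ F c') → v.ord (J - algebraMap KQ F c') = 1)
    (h1728 : ∀ v : Place KQ F, 0 < v.ord (J - algebraMap KQ F 1728) →
      v.ord (J - algebraMap KQ F 1728) = 1 ∨ v.ord (J - algebraMap KQ F 1728) = 2)
    (hzero : ∀ v : Place KQ F, 0 < v.ord (J - algebraMap KQ F 0) →
      v.ord (J - algebraMap KQ F 0) = 1 ∨ v.ord (J - algebraMap KQ F 0) = 3)
    (hrel : J * x ^ 3 = (x + 27) * (x + 243) ^ 3) (c : KQ) (hc0 : c ≠ 0) (hc1 : c ≠ -27)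
    (v : Place KQ F) (hv : 0 < v.ord (x - algebraMap KQ F c)) :
    v.ord (x - algebraMap KQ F c) = 1 := by
  have hQ : (X ^ 3 : KQ[X]).eval c ≠ 0 := by
    simp only [eval_pow, eval_X]
    exact pow_ne_zero 3 hc0
  have hP : ((X + 27) * (X + 243) ^ 3 : KQ[X]).eval c = (c + 27) * (c + 243) ^ 3 := by
    simp only [eval_pow, eval_add, eval_mul, eval_X, eval_ofNat]
  have hQ' : (X ^ 3 : KQ[X]).eval c = c ^ 3 := by simp only [eval_pow, eval_X]
  have hrel' : J * aeval x (X ^ 3 : KQ[X]) = aeval x ((X + 27) * (X + 243) ^ 3 : KQ[X]) := by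
    simp only [map_pow, map_add, map_mul, aeval_X, map_ofNat]
    exact hrel
  refine ord_sub_eq_one_of_rel hgen h1728 hzero hrel' hQ ?_ ?_ v hv
  · rw [hP, hQ']
    exact HauptBranch.hne_three _
  · rw [hP, hQ']
    exact HauptBranch.hmult_three hc0 hc1

end Fermat.Agent.G1.K18.BranchAbs
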