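/-
helper95 — G1 / K18: the wiring  (V-package for `F1a M a`)  +  (BR)  ⟹  (K18) for `F1a M a`.

* `k18Gauss_F1a_of_goodBasis` : `Lib/RedK/ExtX.k18_ext` applied to `F₁ = ℚ̄·F1a(M, a)` with its
  Gauss valuation ring `gaussVS hG` / `gaussRed hπ hG`: from a relative good basis over the trunk
  `(ℚ̄·F₀(M a), Ow, redF)`, separability of the residue extension and (BR) for the two charts of
  the base function (in the `Dict.incl0K` form of `G1/K18/Branch1.lean`), every Gauss unit with
  reduction `1` whose orders are divisible by the prime `p ≠ ℓ` is a `p`-th power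
  (`K18Gauss (F1a M a) A p`).  The algebra structure of `F₁` over the trunk is ANY instance whose
  `algebraMap` is the inclusion (`hcoe`).
* `kummerRootF_F1a_of_goodBasis` : the same in the ratio form `Cong.KummerRootF (F1a M a) A p`,
  with the base function chosen by the residue characteristic (`Data.ofJ` for `ℓ ≥ 5`,
  `ofHaupt2` for `ℓ = 3`, `2 ∣ M a`, `ofHaupt3` for `ℓ = 2`, `3 ∣ M a`) and (BR) discharged by
  `PlaceCases1 M a`.
-/
import Mathlib
import Fermat.Agent.G1.K18.Main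
import Fermat.Agent.G1.K18.Branch1
import Fermat.Agent.G1.K18.BranchDict
import Fermat.Agent.Lib.RedK.ExtX
import Fermat.Agent.ESJ.RedK.KummerRootOfK18
import Fermat.Agent.Lib.FF.CharP.ModLInst
import Fermat.Agent.G1.V.Pack

set_option autoImplicit false
set_option linter.unusedSectionVars false
set_option linter.style.haveILetI false

open AlgebraicCurve ModularCurve HahnSeries

noncomputable section

namespace Fermat.Agent.G1.K18

open Fermat.Agent.S24 Fermat.Agent.ESJ.Jac Fermat.Agent.G1.Dict Fermat.Agent.Lib.Red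
  Fermat.Agent.Lib.Red.BaseFn Fermat.Agent.BAD.TwoVal Fermat.Agent.G1.Cong Fermat.Agent.G1.V

variable {M a : ℕ} [NeZero M] [NeZero a]

set_option synthInstance.maxHeartbeats 400000 in
set_option maxHeartbeats 1000000 in
/-- **(K18), `h`-form, for `F1a M a`** from the V-package (relative good basis + separable
residue extension) and (BR) for the two charts of a base function of the trunk. -/
theorem k18Gauss_F1a_of_goodBasis {ℓ : ℕ} (hℓ : ℓ.Prime) (A : ValuationSubring KQ)
    (hA : A.LiesOverPrime ℓ) (hNk : ((M * a : ℕ) : IsLocalRing.ResidueField A) ≠ 0)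
    (B : BaseFn.Data A (IsLocalRing.residue A) (M * a))
    {κ : IntermediateField (IsLocalRing.ResidueField A)
      (LaurentSeries (IsLocalRing.ResidueField A))}
    (hG : GoodV A (IsLocalRing.residue A) (laurentBaseChange KQ (F1a M a)) κ)
    [Algebra ↥(laurentBaseChange KQ (modularFunctionFieldFull (M * a)))
      ↥(laurentBaseChange KQ (F1a M a))]
    [IsScalarTower KQ ↥(laurentBaseChange KQ (modularFunctionFieldFull (M * a)))
      ↥(laurentBaseChange KQ (F1a M a))]
    (hcoe : ∀ x : ↥(laurentBaseChange KQ (modularFunctionFieldFull (M * a))),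
      ((algebraMap ↥(laurentBaseChange KQ (modularFunctionFieldFull (M * a)))
        ↥(laurentBaseChange KQ (F1a M a)) x : ↥(laurentBaseChange KQ (F1a M a))) :
          LaurentSeries KQ) = (x : LaurentSeries KQ))
    [Algebra ↥(modularFunctionFieldFullC (IsLocalRing.ResidueField A) (M * a)) ↥κ]
    [IsScalarTower (IsLocalRing.ResidueField A)
      ↥(modularFunctionFieldFullC (IsLocalRing.ResidueField A) (M * a)) ↥κ]
    [Algebra.IsSeparable ↥(modularFunctionFieldFullC (IsLocalRing.ResidueField A) (M * a)) ↥κ]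
    {ι : Type*} [Fintype ι] [DecidableEq ι]
    (G₁ : Ortho.GoodBasis (gaussVS hG) (gaussRed (residue_eq_zero (A := A)) hG)
      (Ow A (IsLocalRing.residue A) (M * a) hNk)
      (redF A (IsLocalRing.residue A) (M * a) (residue_eq_zero (A := A)) hNk) ι)
    (hbr : ∀ γ : IsLocalRing.ResidueField A, ∃ c₀ : A, IsLocalRing.residue A c₀ = γ ∧
      ∀ c : A, IsLocalRing.residue A c = γ → c ≠ c₀ →
      ∀ P : Place KQ (F1aK KQ M a),
        0 < P.ord (incl0K KQ M a B.x - algebraMap KQ (F1aK KQ M a) (c : KQ)) →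
        P.ord (incl0K KQ M a B.x - algebraMap KQ (F1aK KQ M a) (c : KQ)) = 1)
    (hbr' : ∀ γ : IsLocalRing.ResidueField A, ∃ c₀ : A, IsLocalRing.residue A c₀ = γ ∧
      ∀ c : A, IsLocalRing.residue A c = γ → c ≠ c₀ →
      ∀ P : Place KQ (F1aK KQ M a),
        0 < P.ord ((incl0K KQ M a B.x)⁻¹ - algebraMap KQ (F1aK KQ M a) (c : KQ)) →
        P.ord ((incl0K KQ M a B.x)⁻¹ - algebraMap KQ (F1aK KQ M a) (c : KQ)) = 1)
    (p : ℕ) (hp : p.Prime) (hpℓ : p ≠ ℓ) : K18Gauss (F1a M a) A p := by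
  haveI : IsAlgClosed (IsLocalRing.ResidueField A) :=
    Fermat.Agent.Lib.FF.CharP.isAlgClosed_residueField A
  have hx : algebraMap ↥(laurentBaseChange KQ (modularFunctionFieldFull (M * a)))
      ↥(laurentBaseChange KQ (F1a M a)) B.x = incl0K KQ M a B.x :=
    Subtype.ext ((hcoe B.x).trans (coe_incl0K KQ M a B.x).symm)
  refine k18Gauss_of_gaussVS (residue_eq_zero (A := A)) hG (fun h hO hred hdvd => ?_)
  exact Fermat.Agent.Lib.RedK.ExtX.k18_ext (M * a) hℓ A hA (IsLocalRing.residue A) B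
    (residue_eq_zero (A := A)) IsLocalRing.residue_surjective hNk G₁
    (by rw [hx]; exact hbr) (by rw [hx]; exact hbr') p hp hpℓ h hO hdvd hred

set_option synthInstance.maxHeartbeats 400000 in
set_option maxHeartbeats 1000000 in
/-- **(K18), ratio form, for `F1a M a` at a good pair `(M a, ℓ)`**, from helper80's V-package
(`G1/V/Pack.lean`: inputs `Pack.Inputs` + a separable polynomial killing `x̄_1`) and the place
dictionary. -/
theorem kummerRootF_F1a_of_inputs (hP : PlaceCases1 M a) {ℓ : ℕ} (hℓ : ℓ.Prime)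
    (hℓN : ¬ ℓ ∣ M * a) (hgood : 5 ≤ ℓ ∨ (ℓ = 3 ∧ 2 ∣ M * a) ∨ (ℓ = 2 ∧ 3 ∣ M * a))
    (A : ValuationSubring KQ) (hA : A.LiesOverPrime ℓ)
    (H : Pack.Inputs (IsLocalRing.ResidueField A) M a)
    (hsep : ∃ Q : Polynomial ↥(modularFunctionFieldFullC (IsLocalRing.ResidueField A) (M * a)),
      Q.Separable ∧ Polynomial.aeval (xgenR (IsLocalRing.ResidueField A) M 1) Q = 0)
    (p : ℕ) (hp : p.Prime) (hpℓ : p ≠ ℓ) : KummerRootF (F1a M a) A p := by
  have hsurj : Function.Surjective (IsLocalRing.residue A) := IsLocalRing.residue_surjective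
  have hNk : ((M * a : ℕ) : IsLocalRing.ResidueField A) ≠ 0 :=
    Fermat.Agent.ESJ.RedK.natCast_residue_ne_zero hℓ hA hℓN
  have hG : GoodV A (IsLocalRing.residue A) (laurentBaseChange KQ (F1a M a))
      (Pack.F1aC (IsLocalRing.ResidueField A) M a) := Pack.goodV_F1a hNk H
  haveI : Algebra.IsSeparable
      ↥(modularFunctionFieldFullC (IsLocalRing.ResidueField A) (M * a))
      ↥(Pack.F1aC (IsLocalRing.ResidueField A) M a) := Pack.isSeparable H hsep
  have G₁ := Pack.goodBasis (A := A) (π := IsLocalRing.residue A) (residue_eq_zero (A := A))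
    hsurj hNk H
  apply kummerRootF_of_k18Gauss
  rcases hgood with h5 | ⟨rfl, h2⟩ | ⟨rfl, h3⟩
  · -- `ℓ ≥ 5`: the base function `J(q^{M a})`
    have hndvd : ¬ ℓ ∣ 1728 := by
      intro hdvd
      have e : (1728 : ℕ) = 2 ^ 6 * 3 ^ 3 := by norm_num
      rw [e] at hdvd
      rcases (Nat.Prime.dvd_mul hℓ).mp hdvd with h | h
      · have := Nat.le_of_dvd (by norm_num) (hℓ.dvd_of_dvd_pow h)
        omega
      · have := Nat.le_of_dvd (by norm_num) (hℓ.dvd_of_dvd_pow h)
        omega
    have h1728 : (1728 : IsLocalRing.ResidueField A) ≠ 0 := by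
      have h := Fermat.Agent.ESJ.RedK.natCast_residue_ne_zero (N := 1728) hℓ hA hndvd
      exact_mod_cast h
    exact k18Gauss_F1a_of_goodBasis hℓ A hA hNk
      (BaseFn.Data.ofJ A (IsLocalRing.residue A) (M * a)) hG (Pack.coe_algebraMap_F1a KQ M a) G₁
      (hbr_ofJ hP hsurj h1728)
      (hbr_ofJ_inv hP (residue_eq_zero (A := A)) hNk hsurj h1728) p hp hpℓ
  · -- `ℓ = 3`, `2 ∣ M a`: the Hauptmodul of level `2`
    obtain ⟨m, hm⟩ := h2
    have hN : M * a = m * 2 := by rw [hm, mul_comm]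
    haveI : NeZero m := ⟨by
      rintro rfl
      exact NeZero.ne (M * a) (by rw [hN, zero_mul])⟩
    have h2k : (2 : IsLocalRing.ResidueField A) ≠ 0 := by
      have h := Fermat.Agent.ESJ.RedK.natCast_residue_ne_zero (N := 2) hℓ hA (by norm_num)
      exact_mod_cast h
    exact k18Gauss_F1a_of_goodBasis hℓ A hA hNk
      (BaseFn.ofHaupt2 A (IsLocalRing.residue A) (M * a) m hN h2k) hG
      (Pack.coe_algebraMap_F1a KQ M a) G₁
      (hbr_ofHaupt2 hP m hN hsurj h2k)
      (hbr_ofHaupt2_inv hP m hN (residue_eq_zero (A := A)) hNk hsurj h2k) p hp hpℓ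
  · -- `ℓ = 2`, `3 ∣ M a`: the Hauptmodul of level `3`
    obtain ⟨m, hm⟩ := h3
    have hN : M * a = m * 3 := by rw [hm, mul_comm]
    haveI : NeZero m := ⟨by
      rintro rfl
      exact NeZero.ne (M * a) (by rw [hN, zero_mul])⟩
    have h3k : (3 : IsLocalRing.ResidueField A) ≠ 0 := by
      have h := Fermat.Agent.ESJ.RedK.natCast_residue_ne_zero (N := 3) hℓ hA (by norm_num)
      exact_mod_cast h
    exact k18Gauss_F1a_of_goodBasis hℓ A hA hNk
      (BaseFn.ofHaupt3 A (IsLocalRing.residue A) (M * a) m hN h3k) hG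
      (Pack.coe_algebraMap_F1a KQ M a) G₁
      (hbr_ofHaupt3 hP m hN hsurj h3k)
      (hbr_ofHaupt3_inv hP m hN (residue_eq_zero (A := A)) hNk hsurj h3k) p hp hpℓ

/-- The inputs of (K18) at the level `(M, a)` and the residue characteristic `p`: the place
dictionary of `ℚ̄·F1a(M, a)` and, for every valuation ring over `p`, helper80's V-package. -/
def K18Inputs (M a p : ℕ) [NeZero M] [NeZero a] : Prop :=
  PlaceCases1 M a ∧ ∀ A : ValuationSubring KQ, A.LiesOverPrime p →
    Pack.Inputs (IsLocalRing.ResidueField A) M a ∧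
    ∃ Q : Polynomial ↥(modularFunctionFieldFullC (IsLocalRing.ResidueField A) (M * a)),
      Q.Separable ∧ Polynomial.aeval (xgenR (IsLocalRing.ResidueField A) M 1) Q = 0

/-- **(K18) for the model field `F1a M 1`** at every residue characteristic `p ∤ M`, `p ≠ l`,
for a prime exponent `l ≥ 5`: from the inputs at the auxiliary levels `a ∈ {1, 2, 3}`
(`a = 1` if `p ≥ 5` or `6 ∣ M p`-type divisibility holds; `a = 2` for `p = 3`, `2 ∤ M`;
`a = 3` for `p = 2`, `3 ∤ M`). -/
theorem kummerRootF_F1a_one_of_inputs (M : ℕ) [NeZero M] (l : ℕ) (hl : l.Prime) (h5 : 5 ≤ l)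
    (p : ℕ) (hp : p.Prime) (hpM : ¬ p ∣ M) (hpl : p ≠ l)
    (hin : ∀ (a : ℕ) [NeZero a], a ≤ 3 → ¬ p ∣ M * a → K18Inputs M a p)
    (A : ValuationSubring KQ) (hA : A.LiesOverPrime p) : KummerRootF (F1a M 1) A l := by
  have hgood : ∀ (a : ℕ) [NeZero a], a ≤ 3 → ¬ p ∣ M * a →
      (5 ≤ p ∨ (p = 3 ∧ 2 ∣ M * a) ∨ (p = 2 ∧ 3 ∣ M * a)) → KummerRootF (F1a M a) A l := by
    intro a _ ha hpa hg
    obtain ⟨hP, hV⟩ := hin a ha hpa
    obtain ⟨H, hsep⟩ := hV A hA
    exact kummerRootF_F1a_of_inputs hP hp hpa hg A hA H hsep l hl (Ne.symm hpl)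
  have h1 : ∀ (hg : 5 ≤ p ∨ (p = 3 ∧ 2 ∣ M) ∨ (p = 2 ∧ 3 ∣ M)), KummerRootF (F1a M 1) A l := by
    intro hg
    exact hgood 1 (by norm_num) (by rwa [mul_one]) (by rwa [mul_one])
  have hF1 : KummerRootF (F1 M) A l → KummerRootF (F1a M 1) A l := by
    intro h
    rwa [F1a_one]
  by_cases hp5 : 5 ≤ p
  · exact h1 (Or.inl hp5)
  · have hp23 : p = 2 ∨ p = 3 := by
      have hlt : p < 5 := not_le.mp hp5
      have h2le := hp.two_le
      interval_cases p
      · exact Or.inl rfl
      · exact Or.inr rfl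
      · exact absurd hp (by decide)
    rcases hp23 with rfl | rfl
    · by_cases h3M : 3 ∣ M
      · exact h1 (Or.inr (Or.inr ⟨rfl, h3M⟩))
      · refine hF1 (kummerRootF_F1_of_F1a M 3 Nat.prime_three h3M A l hl (by omega) ?_)
        refine hgood 3 (le_refl 3) ?_ (Or.inr (Or.inr ⟨rfl, dvd_mul_left 3 M⟩))
        intro hdvd
        rcases (Nat.Prime.dvd_mul Nat.prime_two).mp hdvd with h' | h'
        · exact hpM h'
        · exact absurd h' (by decide)
    · by_cases h2M : 2 ∣ M
      · exact h1 (Or.inr (Or.inl ⟨rfl, h2M⟩))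
      · refine hF1 (kummerRootF_F1_of_F1a M 2 Nat.prime_two h2M A l hl (by omega) ?_)
        refine hgood 2 (by norm_num) ?_ (Or.inr (Or.inl ⟨rfl, dvd_mul_left 2 M⟩))
        intro hdvd
        rcases (Nat.Prime.dvd_mul Nat.prime_three).mp hdvd with h' | h'
        · exact hpM h'
        · exact absurd h' (by decide)

end Fermat.Agent.G1.K18
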