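/-
helper95 — G1 / K18: **(K18) for the model field `F1a M 1`, UNCONDITIONAL.**

`kummerRootF_F1a_one` : for `5 ≤ M`, a prime exponent `l ≥ 5`, a prime `p ∤ M`, `p ≠ l` and every
valuation subring `A` of `ℚ̄` over `p`:  `Cong.KummerRootF (F1a M 1) A l`.

Inputs (all theorems on main):
* the place dictionary of `ℚ̄·F1a(M, a)` (`Dict.Inst.isDict1_Qbar`, through
  `placeCases1_of_isDict1`) at the auxiliary levels `a ∈ {1, 2, 3}`;
* the V-package (`V.inputs_Qbar`, `V.exists_sepPoly`: good basis `1, x₁, …` of the Gauss valuation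
  ring of `ℚ̄·F1a(M, a)` over the trunk, separable residue extension);
* `kummerRootF_F1a_one_of_inputs` (`G1/K18/Wire.lean`).
-/
import Mathlib
import Fermat.Agent.G1.K18.Wire
import Fermat.Agent.G1.V.PackMain
import Fermat.Agent.G1.Dict.InstMain

set_option autoImplicit false
set_option linter.unusedSectionVars false
set_option linter.style.haveILetI false

open AlgebraicCurve ModularCurve HahnSeries

noncomputable section

namespace Fermat.Agent.G1.K18

open Fermat.Agent.S24 Fermat.Agent.ESJ.Jac Fermat.Agent.G1.Dict Fermat.Agent.Lib.Red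
  Fermat.Agent.Lib.Red.BaseFn Fermat.Agent.BAD.TwoVal Fermat.Agent.G1.Cong Fermat.Agent.G1.V

/-- The inputs of (K18) hold at every level `(M, a)`, `5 ≤ M`, and every prime `p ∤ M a`. -/
theorem k18Inputs (M a p : ℕ) [NeZero M] [NeZero a] (hM : 5 ≤ M) (hp : p.Prime)
    (hpa : ¬ p ∣ M * a) : K18Inputs M a p := by
  refine ⟨placeCases1_of_isDict1 (Dict.Inst.isDict1_Qbar hM), fun A hA => ?_⟩
  have hNk : ((M * a : ℕ) : IsLocalRing.ResidueField A) ≠ 0 :=
    Fermat.Agent.ESJ.RedK.natCast_residue_ne_zero hp hA hpa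
  exact ⟨V.inputs_Qbar A M a (by omega) hNk,
    V.exists_sepPoly A (IsLocalRing.residue A) (V.residue_eq_zero_of_not_isUnit A) M (M * a)
      (by omega) (Dvd.intro a rfl) hNk⟩

/-- **(K18) for the model field `F1a M 1`, unconditional**: for `5 ≤ M`, a prime `l ≥ 5`, a
prime `p ∤ M` with `p ≠ l` (including `p = 2, 3`) and every valuation subring `A` of `ℚ̄` over
`p`, a function of `ℚ̄·F1a(M, 1)` which is a ratio of integral `q`-series with the same nonzero
reduction (up to a constant) and whose divisor is divisible by `l` is an `l`-th power up to a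
constant — in the literal shape `Cong.KummerRootF (F1a M 1) A l` consumed by the assembly. -/
theorem kummerRootF_F1a_one (M : ℕ) [NeZero M] (hM : 5 ≤ M) (l : ℕ) (hl : l.Prime)
    (h5 : 5 ≤ l) (p : ℕ) (hp : p.Prime) (hpM : ¬ p ∣ M) (hpl : p ≠ l)
    (A : ValuationSubring KQ) (hA : A.LiesOverPrime p) : KummerRootF (F1a M 1) A l :=
  kummerRootF_F1a_one_of_inputs M l hl h5 p hp hpM hpl
    (fun a _ _ hpa => k18Inputs M a p hM hp hpa) A hA

/-- The same with `l ∣ M` (the situation of the assembly: `p ∤ M` gives `p ≠ l` and `5 ≤ M`). -/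
theorem kummerRootF_F1a_one_of_dvd (M : ℕ) [NeZero M] (l : ℕ) (hl : l.Prime) (h5 : 5 ≤ l)
    (hlM : l ∣ M) (p : ℕ) (hp : p.Prime) (hpM : ¬ p ∣ M)
    (A : ValuationSubring KQ) (hA : A.LiesOverPrime p) : KummerRootF (F1a M 1) A l :=
  kummerRootF_F1a_one M (h5.trans (Nat.le_of_dvd (Nat.pos_of_ne_zero (NeZero.ne M)) hlM)) l hl h5
    p hp hpM (fun h => hpM (h ▸ hlM)) A hA

end Fermat.Agent.G1.K18
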