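/-
G1-K18 (helper95), part 1: from the `h`-form of (K18) to the ratio form `KummerRootF`.

For an arbitrary `F₀ : IntermediateField ℚ (LaurentSeries ℚ)`, `F = ℚ̄·F₀`, and a valuation
subring `A` of `ℚ̄`:

* `K18Gauss F₀ A m` : every `h ∈ F` lying in the Gauss ring, with Gauss reduction `1`, all of
  whose orders are divisible by `m`, is an `m`-th power in `F`  (this is the conclusion of RED-K,
  `Lib.RedK.Abstract.exists_pth_root_of_good`, for the Gauss valuation ring of `F`);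
* `kummerRootF_of_k18Gauss` : `K18Gauss F₀ A m → KummerRootF F₀ A m` (helper43's ratio form);
* `k18Gauss_of_gaussVS` : the `h`-form stated with `BAD.TwoVal.gaussVS hG` / `gaussRed hπ hG`
  (the shape produced by the tower theorem) gives `K18Gauss`.
-/
import Mathlib
import Fermat.Agent.G1.Cong.TorsionESAbs
import Fermat.Agent.BAD.TwoVal.Pair

set_option autoImplicit false

namespace Fermat.Agent.G1.K18

open ModularCurve AlgebraicCurve HahnSeries Fermat.Agent.Lib.Red Fermat.Agent.BAD.TwoVal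
  Fermat.Agent.G1.Cong

noncomputable section

local notation "Qbar" => AlgebraicClosure ℚ

variable (F₀ : IntermediateField ℚ (LaurentSeries ℚ)) (A : ValuationSubring Qbar)

/-- **(K18), `h`-form, for the Gauss ring of `ℚ̄·F₀`.** -/
def K18Gauss (m : ℕ) : Prop :=
  ∀ (h : ↥(laurentBaseChange Qbar F₀))
    (hO : (h : LaurentSeries Qbar) ∈ gaussRing A (IsLocalRing.residue A)),
    red A (IsLocalRing.residue A) ⟨_, hO⟩ = 1 →
    (∀ P : Place Qbar ↥(laurentBaseChange Qbar F₀), (m : ℤ) ∣ P.ord h) →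
    ∃ g : ↥(laurentBaseChange Qbar F₀), g ^ m = h

variable {F₀ A}

/-- **From the `h`-form to the ratio form.** -/
theorem kummerRootF_of_k18Gauss {m : ℕ} (hK : K18Gauss F₀ A m) : KummerRootF F₀ A m := by
  intro y z hy hz hzbar hyz hdvd
  have hZ0 : (⟨_, hz⟩ : ↥(laurentBaseChange Qbar F₀)) ≠ 0 := incl_ne_zero hz hzbar
  have hY0 : (⟨_, hy⟩ : ↥(laurentBaseChange Qbar F₀)) ≠ 0 :=
    incl_ne_zero hy (by rw [hyz]; exact hzbar)
  have hzs : rbar A (IsLocalRing.residue A) z ≠ 0 := hzbar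
  have hmul : (((⟨_, hy⟩ : ↥(laurentBaseChange Qbar F₀)) * (⟨_, hz⟩ : ↥(laurentBaseChange Qbar F₀))⁻¹ :
      ↥(laurentBaseChange Qbar F₀)) : LaurentSeries Qbar) * incl A z = incl A y := by
    have h1 : ((⟨_, hy⟩ : ↥(laurentBaseChange Qbar F₀)) *
        (⟨_, hz⟩ : ↥(laurentBaseChange Qbar F₀))⁻¹) * ⟨_, hz⟩ = ⟨_, hy⟩ := by
      rw [mul_assoc, inv_mul_cancel₀ hZ0, mul_one]
    exact congrArg Subtype.val h1
  have hmem : (((⟨_, hy⟩ : ↥(laurentBaseChange Qbar F₀)) *
      (⟨_, hz⟩ : ↥(laurentBaseChange Qbar F₀))⁻¹ : ↥(laurentBaseChange Qbar F₀)) :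
      LaurentSeries Qbar) ∈ gaussRing A (IsLocalRing.residue A) :=
    mem_gaussRing_of_mul_eq hzs hmul
  have hred : red A (IsLocalRing.residue A) ⟨_, hmem⟩ = 1 := by
    rw [red_of_mul_eq hzs hmul hmem]
    have h2 : rbar A (IsLocalRing.residue A) y = rbar A (IsLocalRing.residue A) z := hyz
    rw [h2, div_self hzs]
  obtain ⟨g, hg⟩ := hK _ hmem hred (fun P => by
    rw [P.ord_mul hY0 (inv_ne_zero hZ0), P.ord_inv, ← sub_eq_add_neg]
    exact hdvd P)
  refine ⟨g, ?_⟩
  rw [hg, mul_comm, mul_assoc, inv_mul_cancel₀ hZ0, mul_one]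

/-- The `h`-form stated for the valuation ring `gaussVS hG` and its residue map `gaussRed hπ hG`
(any `GoodV` witness) is `K18Gauss`. -/
theorem k18Gauss_of_gaussVS {m : ℕ}
    {κ : IntermediateField (IsLocalRing.ResidueField A)
      (LaurentSeries (IsLocalRing.ResidueField A))}
    (hπ : ∀ a : A, ¬ IsUnit a → IsLocalRing.residue A a = 0)
    (hG : GoodV A (IsLocalRing.residue A) (laurentBaseChange Qbar F₀) κ)
    (hroot : ∀ (h : ↥(laurentBaseChange Qbar F₀)) (hO : h ∈ gaussVS hG),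
      gaussRed hπ hG ⟨h, hO⟩ = 1 →
      (∀ P : Place Qbar ↥(laurentBaseChange Qbar F₀), (m : ℤ) ∣ P.ord h) →
      ∃ g : ↥(laurentBaseChange Qbar F₀), g ^ m = h) :
    K18Gauss F₀ A m := by
  intro h hO hred hdvd
  have hO' : h ∈ gaussVS hG := hO
  refine hroot h hO' ?_ hdvd
  apply Subtype.ext
  have h1 := coe_gaussRed_mk hπ hG h hO'
  rw [h1]
  exact hred

/-- The residue map kills the nonunits of `A`. -/
theorem residue_eq_zero (a : A) (ha : ¬ IsUnit a) : IsLocalRing.residue A a = 0 :=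
  (IsLocalRing.residue_eq_zero_iff a).mpr ((IsLocalRing.mem_maximalIdeal a).mpr ha)

end

end Fermat.Agent.G1.K18
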