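/-
G1-K18 (helper95), part 3: `KummerRootF (F1 M) A l` at every prime `p ∤ M` (residue
characteristic of `A`), for a prime exponent `l ≥ 5`, `l ≠ p`, from (K18) at the *good pairs*
`(M·a, p)` of the trunk:

  `p ≥ 5` (`a = 1`),   `p = 3` and `2 ∣ M·a`,   `p = 2` and `3 ∣ M·a`.

* `kummerRootF_F1_of_F1a` : descent from `F1a M a = F1 M ⊔ F_{M a}` to `F1 M` for a prime
  `a ∤ M` with `a + 1 < l` (the degree is at most `[F_{Ma} : F_M] = a + 1`);
* `GoodPairK18 M l` : (K18), ratio form, for all `F1a M a` at the good pairs;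
* `kummerRootF_F1_of_good` : `GoodPairK18 M l → KummerRootF (F1 M) A l` for all `p ∤ M`,
  `p ≠ l`, `l ≥ 5` (auxiliary level `a = 2` for `p = 3`, `a = 3` for `p = 2`).
-/
import Mathlib
import Fermat.Agent.G1.Gen
import Fermat.Agent.G1.K18.Ratio
import Fermat.Agent.G1.K18.Descent
import Fermat.Agent.ESJ.Cong.ConjNormAnalytic

set_option autoImplicit false
set_option linter.style.haveILetI false

namespace Fermat.Agent.G1.K18

open ModularCurve AlgebraicCurve HahnSeries Fermat.Agent.G1.Cong IntermediateField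

noncomputable section

local notation "Qbar" => AlgebraicClosure ℚ

set_option synthInstance.maxHeartbeats 400000 in
set_option maxHeartbeats 1000000 in
/-- **Descent from the auxiliary level.**  For a prime `a ∤ M` and a prime exponent `l > a + 1`,
(K18) for `F1a M a` gives (K18) for `F1 M`. -/
theorem kummerRootF_F1_of_F1a (M a : ℕ) [NeZero M] [NeZero a] (ha : a.Prime) (haM : ¬ a ∣ M)
    (A : ValuationSubring Qbar) (l : ℕ) (hl : l.Prime) (hal : a + 1 < l)
    (hK : KummerRootF (F1a M a) A l) : KummerRootF (F1 M) A l := by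
  have hG : modularFunctionFieldFull M ≤ modularFunctionFieldFull (M * a) :=
    full_degeneracy_le (dvd_mul_right M a)
  have key := Fermat.Agent.ESJ.Cong.ConjAnalytic.finite_and_finrank_alpha M a ha haM
  exact kummerRootF_of_sup hG (full_le_F1 M) A l (a + 1) hl hal key.1 (le_of_eq key.2) hK

/-- (K18), ratio form, for the fields `F1a M a` at the good pairs `(M·a, p)`. -/
def GoodPairK18 (M : ℕ) [NeZero M] (l : ℕ) : Prop :=
  ∀ (a : ℕ) [NeZero a] (p : ℕ), p.Prime → ¬ p ∣ M * a →
    (5 ≤ p ∨ (p = 3 ∧ 2 ∣ M * a) ∨ (p = 2 ∧ 3 ∣ M * a)) → p ≠ l →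
    ∀ A : ValuationSubring Qbar, A.LiesOverPrime p → KummerRootF (F1a M a) A l

/-- **(K18) for `F1 M` at every residue characteristic `p ∤ M`**, from the good pairs. -/
theorem kummerRootF_F1_of_good (M : ℕ) [NeZero M] (l : ℕ) (hl : l.Prime) (h5 : 5 ≤ l)
    (hgood : GoodPairK18 M l) (p : ℕ) (hp : p.Prime) (hpM : ¬ p ∣ M) (hpl : p ≠ l)
    (A : ValuationSubring Qbar) (hA : A.LiesOverPrime p) : KummerRootF (F1 M) A l := by
  have h1 : ∀ (hg : 5 ≤ p ∨ (p = 3 ∧ 2 ∣ M) ∨ (p = 2 ∧ 3 ∣ M)), KummerRootF (F1 M) A l := by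
    intro hg
    have h := hgood 1 p hp (by rwa [mul_one]) (by rwa [mul_one]) hpl A hA
    rwa [F1a_one] at h
  by_cases hp5 : 5 ≤ p
  · exact h1 (Or.inl hp5)
  · have hp23 : p = 2 ∨ p = 3 := by
      have hlt : p < 5 := not_le.mp hp5
      have h2le := hp.two_le
      interval_cases p
      · exact Or.inl rfl
      · exact Or.inr rfl
      · exact absurd hp (by decide)
    rcases hp23 with rfl | rfl
    · by_cases h3M : 3 ∣ M
      · exact h1 (Or.inr (Or.inr ⟨rfl, h3M⟩))
      · refine kummerRootF_F1_of_F1a M 3 Nat.prime_three h3M A l hl (by omega) ?_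
        refine hgood 3 2 hp ?_ (Or.inr (Or.inr ⟨rfl, dvd_mul_left 3 M⟩)) hpl A hA
        intro hdvd
        rcases (Nat.Prime.dvd_mul Nat.prime_two).mp hdvd with h' | h'
        · exact hpM h'
        · exact absurd h' (by decide)
    · by_cases h2M : 2 ∣ M
      · exact h1 (Or.inr (Or.inl ⟨rfl, h2M⟩))
      · refine kummerRootF_F1_of_F1a M 2 Nat.prime_two h2M A l hl (by omega) ?_
        refine hgood 2 3 hp ?_ (Or.inr (Or.inl ⟨rfl, dvd_mul_left 2 M⟩)) hpl A hA
        intro hdvd
        rcases (Nat.Prime.dvd_mul Nat.prime_three).mp hdvd with h' | h'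
        · exact hpM h'
        · exact absurd h' (by decide)

end

end Fermat.Agent.G1.K18
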